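/-
MAZ row 710 (F-D2'), part (AP), helper75: **a discrete valuation ring is a maximal proper subring
of its fraction field** (valuation-subring form).

`A` a DVR with fraction field `F`, `O` a valuation subring of `F`, `O ≠ ⊤`, containing the image
of `A`.  Then `O` is exactly the image of `A`.  (Mathlib only.)
-/
import Mathlib

set_option autoImplicit false

namespace Fermat.Agent.MAZ.AP75

variable {A F : Type*} [CommRing A] [IsDomain A] [IsDiscreteValuationRing A] [Field F]
  [Algebra A F] [IsFractionRing A F]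

/-- every nonzero element of the fraction field of a DVR is `unit * ϖ ^ n`, `n : ℤ`. -/
theorem exists_unit_mul_zpow {ϖ : A} (hϖ : Irreducible ϖ) {f : F} (hf : f ≠ 0) :
    ∃ (u : Aˣ) (n : ℤ), f = algebraMap A F u * (algebraMap A F ϖ) ^ n := by
  obtain ⟨a, s, hs, rfl⟩ := IsFractionRing.div_surjective (A := A) f
  have hs0 : s ≠ 0 := nonZeroDivisors.ne_zero hs
  have ha0 : a ≠ 0 := by
    rintro rfl
    simp at hf
  obtain ⟨n, u, hu⟩ := IsDiscreteValuationRing.eq_unit_mul_pow_irreducible ha0 hϖ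
  obtain ⟨m, u', hu'⟩ := IsDiscreteValuationRing.eq_unit_mul_pow_irreducible hs0 hϖ
  have hϖ0 : algebraMap A F ϖ ≠ 0 := by
    rw [Ne, FaithfulSMul.algebraMap_eq_zero_iff]
    exact hϖ.ne_zero
  have hu'0 : algebraMap A F (u' : A) ≠ 0 := by
    rw [Ne, FaithfulSMul.algebraMap_eq_zero_iff]
    exact u'.ne_zero
  refine ⟨u * u'⁻¹, (n : ℤ) - m, ?_⟩
  rw [hu, hu', map_mul, map_mul, map_pow, map_pow, zpow_sub₀ hϖ0, zpow_natCast, zpow_natCast,
    Units.val_mul, map_mul]
  have hinv : algebraMap A F ((u'⁻¹ : Aˣ) : A) = (algebraMap A F (u' : A))⁻¹ := by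
    refine eq_inv_of_mul_eq_one_left ?_
    rw [← map_mul, Units.inv_mul, map_one]
  rw [hinv]
  field_simp

/-- **A DVR is a maximal proper subring of its fraction field.** -/
theorem mem_valuationSubring_iff_of_dvr (O : ValuationSubring F) (hO : O ≠ ⊤)
    (hle : ∀ a : A, algebraMap A F a ∈ O) (f : F) :
    f ∈ O ↔ f ∈ (algebraMap A F).range := by
  constructor
  · intro hf
    by_cases hf0 : f = 0
    · subst hf0
      exact ⟨0, map_zero _⟩
    obtain ⟨ϖ, hϖ⟩ := IsDiscreteValuationRing.exists_irreducible A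
    have hϖ0 : algebraMap A F ϖ ≠ 0 := by
      rw [Ne, FaithfulSMul.algebraMap_eq_zero_iff]
      exact hϖ.ne_zero
    obtain ⟨u, n, rfl⟩ := exists_unit_mul_zpow (F := F) hϖ hf0
    rcases le_or_gt 0 n with hn | hn
    · lift n to ℕ using hn
      exact ⟨u * ϖ ^ n, by rw [map_mul, map_pow, zpow_natCast]⟩
    · exfalso
      -- `ϖ⁻¹ ∈ O`, hence `O = ⊤`
      have hu0 : algebraMap A F (u : A) ≠ 0 := by
        rw [Ne, FaithfulSMul.algebraMap_eq_zero_iff]
        exact u.ne_zero
      have h1 : (algebraMap A F ϖ) ^ n ∈ O := by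
        have h2 : (algebraMap A F ((u⁻¹ : Aˣ) : A)) *
            (algebraMap A F u * (algebraMap A F ϖ) ^ n) ∈ O := O.mul_mem _ _ (hle _) hf
        rwa [← mul_assoc, ← map_mul, Units.inv_mul, map_one, one_mul] at h2
      have h3 : (algebraMap A F ϖ)⁻¹ ∈ O := by
        obtain ⟨k, hk⟩ : ∃ k : ℕ, n = -((k : ℤ) + 1) := ⟨(-n - 1).toNat, by omega⟩
        have h4 : (algebraMap A F ϖ) ^ k * (algebraMap A F ϖ) ^ n ∈ O :=
          O.mul_mem _ _ (O.pow_mem (hle _) k) h1
        rwa [hk, ← zpow_natCast, ← zpow_add₀ hϖ0, show ((k : ℤ) + -((k : ℤ) + 1)) = -1 by ring,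
          zpow_neg_one] at h4
      apply hO
      refine SetLike.ext fun g => ⟨fun _ => ValuationSubring.mem_top g, fun _ => ?_⟩
      by_cases hg0 : g = 0
      · subst hg0
        exact O.zero_mem
      obtain ⟨w, m, rfl⟩ := exists_unit_mul_zpow (F := F) hϖ hg0
      refine O.mul_mem _ _ (hle _) ?_
      rcases le_or_gt 0 m with hm | hm
      · lift m to ℕ using hm
        rw [zpow_natCast]
        exact O.pow_mem (hle _) m
      · obtain ⟨k, hk⟩ : ∃ k : ℕ, m = -(k : ℤ) := ⟨(-m).toNat, by omega⟩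
        rw [hk, zpow_neg, zpow_natCast, ← inv_pow]
        exact O.pow_mem h3 k
  · rintro ⟨a, rfl⟩
    exact hle a

end Fermat.Agent.MAZ.AP75
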