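/-
MAZ row 710 (F-D2'), part (AP), helper75: **a valuation subring dominating a regular
one-dimensional local ring is that local ring** (generic form).

`R` a noetherian domain with fraction field `F`, `I` a prime of `R` such that `I·R_I` is
principal; `O ≠ ⊤` a valuation subring of `F` containing `R` in which every element outside `I`
is invertible.  Then `O = R_I` (as a subset of `F`): `f ∈ O ↔ f = r / s` with `s ∉ I`.
In particular `O` is determined by `(R, I)`.  (Mathlib only.)
-/
import Mathlib
import Fermat.Agent.MAZ.AP75.Dvr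

set_option autoImplicit false

namespace Fermat.Agent.MAZ.AP75

open IsLocalRing

section

variable {R F : Type*} [CommRing R] [IsDomain R] [IsNoetherianRing R] [Field F] [Algebra R F]
  [IsFractionRing R F]

/-- the `F`-algebra structure on the localisation at a prime. -/
@[reducible] noncomputable def locAlgebra (I : Ideal R) [I.IsPrime] : Algebra (Localization.AtPrime I) F :=
  (IsLocalization.lift (M := I.primeCompl) (g := algebraMap R F) (fun s => by
    have hs : (s : R) ≠ 0 := fun h => s.2 (h ▸ I.zero_mem)
    exact ((map_ne_zero_iff _ (IsFractionRing.injective R F)).mpr hs).isUnit)).toAlgebra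

theorem mem_valuationSubring_iff_of_principal (I : Ideal R) (hI : I.IsPrime)
    (O : ValuationSubring F) (hO : O ≠ ⊤) (hR : ∀ r : R, algebraMap R F r ∈ O)
    (hunit : ∀ s : R, s ∉ I → (algebraMap R F s)⁻¹ ∈ O)
    (t : R) (ht : t ∈ I) (hgen : ∀ r ∈ I, ∃ c d : R, d ∉ I ∧ d * r = c * t) (f : F) :
    f ∈ O ↔ ∃ r s : R, s ∉ I ∧ f = algebraMap R F r / algebraMap R F s := by
  have := hI
  let : Algebra (Localization.AtPrime I) F := locAlgebra I
  have hlift : ∀ r : R, algebraMap (Localization.AtPrime I) F
      (algebraMap R (Localization.AtPrime I) r) = algebraMap R F r := fun r =>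
    IsLocalization.lift_eq _ r
  have : IsScalarTower R (Localization.AtPrime I) F :=
    IsScalarTower.of_algebraMap_eq fun r => (hlift r).symm
  have : IsFractionRing (Localization.AtPrime I) F :=
    IsFractionRing.isFractionRing_of_isDomain_of_isLocalization I.primeCompl
      (Localization.AtPrime I) F
  -- the image of the localisation
  have hmk : ∀ (r : R) (s : I.primeCompl), algebraMap (Localization.AtPrime I) F
      (IsLocalization.mk' (Localization.AtPrime I) r s) =
        algebraMap R F r / algebraMap R F s := by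
    intro r s
    have hs : algebraMap R F (s : R) ≠ 0 := by
      have hs : (s : R) ≠ 0 := fun h => s.2 (h ▸ I.zero_mem)
      exact (map_ne_zero_iff _ (IsFractionRing.injective R F)).mpr hs
    rw [eq_div_iff hs, ← hlift (s : R), ← map_mul, IsLocalization.mk'_spec, hlift]
  have hrange : ∀ a : Localization.AtPrime I, algebraMap (Localization.AtPrime I) F a ∈ O := by
    intro a
    obtain ⟨r, s, rfl⟩ := IsLocalization.exists_mk'_eq I.primeCompl a
    rw [hmk, div_eq_mul_inv]
    exact O.mul_mem _ _ (hR r) (hunit s s.2)
  -- not a field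
  have hnf : ¬ IsField (Localization.AtPrime I) := by
    intro hf
    have hsurj := (IsFractionRing.surjective_iff_isField (R := Localization.AtPrime I)
      (K := F)).mpr hf
    apply hO
    refine SetLike.ext fun g => ⟨fun _ => ValuationSubring.mem_top g, fun _ => ?_⟩
    obtain ⟨a, rfl⟩ := hsurj g
    exact hrange a
  -- principal maximal ideal
  have hprinc : (maximalIdeal (Localization.AtPrime I)).IsPrincipal := by
    refine ⟨⟨algebraMap R (Localization.AtPrime I) t, ?_⟩⟩
    rw [← Localization.AtPrime.map_eq_maximalIdeal]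
    apply le_antisymm
    · rw [Ideal.map_le_iff_le_comap]
      intro r hr
      obtain ⟨c, d, hd, hcd⟩ := hgen r hr
      rw [Ideal.mem_comap]
      have hdu : IsUnit (algebraMap R (Localization.AtPrime I) d) :=
        IsLocalization.map_units (Localization.AtPrime I) (⟨d, hd⟩ : I.primeCompl)
      obtain ⟨u, hu⟩ := hdu
      have h1 : algebraMap R (Localization.AtPrime I) r =
          ((u⁻¹ : (Localization.AtPrime I)ˣ) : Localization.AtPrime I) *
            algebraMap R (Localization.AtPrime I) c *
            algebraMap R (Localization.AtPrime I) t := by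
        rw [mul_assoc, ← map_mul, ← hcd, map_mul, ← hu, ← mul_assoc, Units.inv_mul, one_mul]
      rw [h1]
      exact Ideal.mul_mem_left _ _ (Ideal.subset_span rfl)
    · change Ideal.span _ ≤ _
      rw [Ideal.span_le, Set.singleton_subset_iff]
      exact Ideal.mem_map_of_mem _ ht
  have : IsDiscreteValuationRing (Localization.AtPrime I) :=
    ((IsDiscreteValuationRing.TFAE (Localization.AtPrime I) hnf).out 4 0).mp hprinc
  rw [mem_valuationSubring_iff_of_dvr (A := Localization.AtPrime I) O hO hrange f]
  constructor
  · rintro ⟨a, rfl⟩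
    obtain ⟨r, s, rfl⟩ := IsLocalization.exists_mk'_eq I.primeCompl a
    exact ⟨r, s, s.2, hmk r s⟩
  · rintro ⟨r, s, hs, rfl⟩
    exact ⟨IsLocalization.mk' (Localization.AtPrime I) r (⟨s, hs⟩ : I.primeCompl), hmk r ⟨s, hs⟩⟩

/-- **uniqueness**: two such valuation subrings coincide. -/
theorem valuationSubring_eq_of_principal (I : Ideal R) (hI : I.IsPrime)
    (O O' : ValuationSubring F) (hO : O ≠ ⊤) (hO' : O' ≠ ⊤)
    (hR : ∀ r : R, algebraMap R F r ∈ O) (hR' : ∀ r : R, algebraMap R F r ∈ O')
    (hunit : ∀ s : R, s ∉ I → (algebraMap R F s)⁻¹ ∈ O)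
    (hunit' : ∀ s : R, s ∉ I → (algebraMap R F s)⁻¹ ∈ O')
    (t : R) (ht : t ∈ I) (hgen : ∀ r ∈ I, ∃ c d : R, d ∉ I ∧ d * r = c * t) : O = O' :=
  SetLike.ext fun f => by
    rw [mem_valuationSubring_iff_of_principal I hI O hO hR hunit t ht hgen,
      mem_valuationSubring_iff_of_principal I hI O' hO' hR' hunit' t ht hgen]

end

end Fermat.Agent.MAZ.AP75
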