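/-
MAZ row 710 (F-D2'), part (AP), helper75: **a smooth point of a plane model of a function field
carries exactly one place.**

`K` a field, `F / K` a field generated by `x, y`, `Φ : K[X][Y]` (Mathlib's bivariate polynomials,
outer variable `Y`; same orientation as the Prelude's `ModularPolynomialData.Φ`) with
`Φ(x, y) = 0`.  A place `v` of `F / K` is *centred at* `(a, b) : K × K` if
`0 < ord_v (x - a)` and `0 < ord_v (y - b)` (`IsCentred v x y a b`).

* `exists_decomp` : Taylor decomposition `G = (Y - b) Q₁ + (X - a) q₂ + G(a,b)`;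
* `IsCentred.adicValuation_sub_lt_one` : `G(x,y) ≡ G(a,b)` modulo the maximal ideal of `v`;
* `IsCentred.adicValuation_lt_one_iff` : `G(x,y) ∈ 𝔪_v ↔ G(a,b) = 0`;
* `place_eq_of_smooth` : if `b` is a simple root of `Φ(a, Y)` or `a` is a simple root of
  `Φ(X, b)`, then two places centred at `(a, b)` are equal.

Proof: `K[x,y]` localised at the ideal of the point is a noetherian local domain whose maximal
ideal is generated by `x - a` (resp. `y - b`), hence a DVR, hence a maximal proper subring of
`F` (`LocalDvr.lean`, `Dvr.lean`).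
-/
import Mathlib
import Fermat.Agent.X0.FFDict
import Fermat.Agent.MAZ.AP75.LocalDvr

set_option autoImplicit false

namespace Fermat.Agent.MAZ.AP75

open Polynomial AlgebraicCurve
open scoped Polynomial.Bivariate

variable {K F : Type*} [Field K] [Field F] [Algebra K F]

/-- **Taylor decomposition at a point**: `G = (Y - b) Q₁ + (X - a) q₂ + G(a,b)` with
`Q₁(a,b) = ∂G/∂Y (a,b)` and `q₂(a) = ∂G/∂X (a,b)` (both written as one-variable derivatives). -/
theorem exists_decomp (G : K[X][Y]) (a b : K) :
    ∃ (Q₁ : K[X][Y]) (q₂ : K[X]),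
      G = (Y - C (C b)) * Q₁ + C ((X - C a) * q₂) + C (C (G.evalEval a b)) ∧
      Q₁.evalEval a b = (derivative (G.map (evalRingHom a))).eval b ∧
      q₂.eval a = (derivative (G.eval (C b))).eval a := by
  obtain ⟨Q₁, h1⟩ := X_sub_C_dvd_sub_C_eval (p := G) (a := C b)
  obtain ⟨q₂, h2⟩ := X_sub_C_dvd_sub_C_eval (p := G.eval (C b)) (a := a)
  have h1' : G = (Y - C (C b)) * Q₁ + C (G.eval (C b)) := by rw [← h1]; ring
  have h2' : G.eval (C b) = (X - C a) * q₂ + C (G.evalEval a b) := by
    rw [← h2]; simp only [evalEval]; ring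
  refine ⟨Q₁, q₂, ?_, ?_, ?_⟩
  · conv_lhs => rw [h1', h2']
    rw [C_add]
    ring
  · have h3 : G.map (evalRingHom a) =
        (X - C b) * Q₁.map (evalRingHom a) + C (G.evalEval a b) := by
      conv_lhs => rw [h1']
      simp only [Polynomial.map_add, Polynomial.map_mul, Polynomial.map_sub, map_X, map_C,
        coe_evalRingHom, eval_C]
    rw [h3]
    simp [map_evalRingHom_eval]
  · rw [h2']
    simp

section Eval

variable (x y : F)

/-- evaluation of bivariate polynomials at `(x, y)` lands in every subalgebra containing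
`x` and `y`. -/
theorem aevalAeval_mem (S : Subalgebra K F) (hx : x ∈ S) (hy : y ∈ S) (G : K[X][Y]) :
    aevalAeval x y G ∈ S := by
  have h : S.val.comp (aevalAeval (⟨x, hx⟩ : S) ⟨y, hy⟩) = aevalAeval x y := by
    apply (aevalAevalEquiv K F).symm.injective
    rw [Equiv.symm_apply_apply]
    ext <;> simp
  rw [← h]
  exact (aevalAeval (⟨x, hx⟩ : S) ⟨y, hy⟩ G).2

variable (K)

/-- the coordinate ring `K[x, y] ⊆ F`. -/
noncomputable abbrev coordRing : Subalgebra K F := (aevalAeval x y : K[X][Y] →ₐ[K] F).range

/-- evaluation onto the coordinate ring. -/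
noncomputable abbrev evR : K[X][Y] →ₐ[K] coordRing K x y :=
  (aevalAeval x y : K[X][Y] →ₐ[K] F).rangeRestrict

theorem evR_surjective : Function.Surjective (evR K x y) :=
  (aevalAeval x y : K[X][Y] →ₐ[K] F).rangeRestrict_surjective

@[simp]
theorem coe_evR (G : K[X][Y]) : ((evR K x y G : coordRing K x y) : F) = aevalAeval x y G := rfl

instance : IsNoetherianRing (coordRing K x y) :=
  isNoetherianRing_of_surjective K[X][Y] (coordRing K x y) (evR K x y).toRingHom
    (evR_surjective K x y)

theorem isFractionRing_coordRing (hgen : IntermediateField.adjoin K {x, y} = ⊤) :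
    IsFractionRing (coordRing K x y) F := by
  refine IsFractionRing.of_field _ _ fun z => ?_
  have hz : z ∈ IntermediateField.adjoin K {x, y} := by rw [hgen]; trivial
  obtain ⟨r, hr, s, hs, rfl⟩ := IntermediateField.mem_adjoin_iff_div.mp hz
  have hle : Algebra.adjoin K {x, y} ≤ coordRing K x y := by
    refine Algebra.adjoin_le ?_
    rintro z (rfl | rfl)
    · exact ⟨C X, by simp⟩
    · exact ⟨Y, by simp⟩
  exact ⟨⟨r, hle hr⟩, ⟨s, hle hs⟩, rfl⟩

variable {K} (a b : K)

/-- the ideal of the point `(a, b)` in the coordinate ring. -/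
noncomputable def ptIdeal : Ideal (coordRing K x y) :=
  Ideal.map (evR K x y) (RingHom.ker (evalEvalRingHom a b))

end Eval

section Place

open Fermat.Agent.X0

variable (v : Place K F)

theorem adicValuation_lt_one_of_ord_pos {f : F} (h : 0 < v.ord f) : v.adicValuation f < 1 := by
  have hf : f ≠ 0 := by
    rintro rfl
    simp at h
  rw [v.adicValuation_eq_exp_neg_ord hf, ← WithZero.exp_zero, WithZero.exp_lt_exp]
  omega

theorem adicValuation_algebraMap_eq_one {c : K} (hc : c ≠ 0) :
    v.adicValuation (algebraMap K F c) = 1 := by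
  have hc' : algebraMap K F c ≠ 0 := (map_ne_zero_iff _ (algebraMap K F).injective).mpr hc
  rw [v.adicValuation_eq_exp_neg_ord hc', FF.ord_algebraMap, neg_zero, WithZero.exp_zero]

theorem mem_of_adicValuation_le_one {f : F} (h : v.adicValuation f ≤ 1) :
    f ∈ v.toValuationSubring :=
  (FF.mem_iff_ord_nonneg v).mpr (v.adicValuation_le_one_iff.mp h)

/-- the valuation ring of a place as a `K`-subalgebra. -/
def valSubalgebra : Subalgebra K F :=
  { v.toValuationSubring.toSubring with algebraMap_mem' := v.algebraMap_mem' }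

theorem mem_valSubalgebra {f : F} : f ∈ valSubalgebra v ↔ f ∈ v.toValuationSubring := Iff.rfl

variable (x y : F) (a b : K)

/-- the place `v` is centred at the point `(a, b)` with respect to the coordinate functions
`(x, y)`. -/
def IsCentred : Prop :=
  0 < v.ord (x - algebraMap K F a) ∧ 0 < v.ord (y - algebraMap K F b)

variable {v x y a b}

theorem IsCentred.x_mem (h : IsCentred v x y a b) : x ∈ v.toValuationSubring := by
  have h1 := FF.mem_of_ord_nonneg v h.1.le
  have h2 := v.toValuationSubring.add_mem _ _ h1 (v.algebraMap_mem' a)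
  simpa using h2

theorem IsCentred.y_mem (h : IsCentred v x y a b) : y ∈ v.toValuationSubring := by
  have h1 := FF.mem_of_ord_nonneg v h.2.le
  have h2 := v.toValuationSubring.add_mem _ _ h1 (v.algebraMap_mem' b)
  simpa using h2

theorem IsCentred.aevalAeval_mem (h : IsCentred v x y a b) (G : K[X][Y]) :
    aevalAeval x y G ∈ v.toValuationSubring :=
  Fermat.Agent.MAZ.AP75.aevalAeval_mem x y (valSubalgebra v) h.x_mem h.y_mem G

theorem IsCentred.adicValuation_le_one (h : IsCentred v x y a b) (G : K[X][Y]) :
    v.adicValuation (aevalAeval x y G) ≤ 1 :=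
  v.adicValuation_le_one_of_mem (h.aevalAeval_mem G)

/-- **evaluation commutes with reduction**: `G(x,y) ≡ G(a,b)` modulo the maximal ideal. -/
theorem IsCentred.adicValuation_sub_lt_one (h : IsCentred v x y a b) (G : K[X][Y]) :
    v.adicValuation (aevalAeval x y G - algebraMap K F (G.evalEval a b)) < 1 := by
  obtain ⟨Q₁, q₂, hG, -, -⟩ := exists_decomp G a b
  have h1 : aevalAeval x y G - algebraMap K F (G.evalEval a b) =
      (y - algebraMap K F b) * aevalAeval x y Q₁ +
        (x - algebraMap K F a) * aevalAeval x y (C q₂) := by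
    have h0 := congrArg (aevalAeval x y) hG
    simp only [map_add, map_mul, map_sub, aevalAeval_Y, aevalAeval_C, aeval_C, aeval_X] at h0
    rw [h0, aevalAeval_C]
    ring
  rw [h1]
  refine Valuation.map_add_lt _ ?_ ?_
  · rw [map_mul]
    exact mul_lt_one_of_lt_of_le (adicValuation_lt_one_of_ord_pos v h.2)
      (h.adicValuation_le_one _)
  · rw [map_mul]
    exact mul_lt_one_of_lt_of_le (adicValuation_lt_one_of_ord_pos v h.1)
      (h.adicValuation_le_one _)

theorem IsCentred.adicValuation_lt_one_iff (h : IsCentred v x y a b) (G : K[X][Y]) :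
    v.adicValuation (aevalAeval x y G) < 1 ↔ G.evalEval a b = 0 := by
  have h1 := h.adicValuation_sub_lt_one G
  constructor
  · intro h2
    by_contra hne
    have h3 : v.adicValuation (algebraMap K F (G.evalEval a b)) < 1 := by
      have : algebraMap K F (G.evalEval a b) =
          aevalAeval x y G - (aevalAeval x y G - algebraMap K F (G.evalEval a b)) := by ring
      rw [this]
      exact Valuation.map_sub_lt _ h2 h1
    rw [adicValuation_algebraMap_eq_one v hne] at h3
    exact lt_irrefl _ h3
  · intro h2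
    rwa [h2, map_zero, sub_zero] at h1

theorem IsCentred.adicValuation_eq_one (h : IsCentred v x y a b) {G : K[X][Y]}
    (hG : G.evalEval a b ≠ 0) : v.adicValuation (aevalAeval x y G) = 1 :=
  le_antisymm (h.adicValuation_le_one G)
    (not_lt.mp fun h2 => hG ((h.adicValuation_lt_one_iff G).mp h2))

/-- membership in the ideal of the point, tested on a lift. -/
theorem IsCentred.evR_mem_ptIdeal_iff (h : IsCentred v x y a b) (G : K[X][Y]) :
    evR K x y G ∈ ptIdeal x y a b ↔ G.evalEval a b = 0 := by
  constructor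
  · intro hG
    rw [ptIdeal, Ideal.mem_map_iff_of_surjective _ (evR_surjective K x y)] at hG
    obtain ⟨G', hG', hGG'⟩ := hG
    rw [← h.adicValuation_lt_one_iff G]
    have h1 : aevalAeval x y G = aevalAeval x y G' := by
      rw [← coe_evR, ← coe_evR, hGG']
    rw [h1, h.adicValuation_lt_one_iff G']
    exact hG'
  · intro hG
    exact Ideal.mem_map_of_mem _ hG

theorem IsCentred.ptIdeal_isPrime (h : IsCentred v x y a b) : (ptIdeal x y a b).IsPrime := by
  have hmax : (RingHom.ker (evalEvalRingHom a b)).IsMaximal :=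
    RingHom.ker_isMaximal_of_surjective _ (evalEval_surjective a b)
  rcases Ideal.map_eq_top_or_isMaximal_of_surjective (evR K x y) (evR_surjective K x y) hmax
    with h1 | h1
  · exfalso
    have h2 : evR K x y 1 ∈ ptIdeal x y a b := by
      rw [ptIdeal, h1]; trivial
    rw [h.evR_mem_ptIdeal_iff] at h2
    simp at h2
  · exact h1.isPrime

/-- from a relation `t' d = t e` with `d ∉ I`: every `t α + t' β` becomes a multiple of `t`
after multiplication by `d`. -/
theorem exists_mul_eq_of_rel {R : Type*} [CommRing R] (I : Ideal R) (t t' d e : R)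
    (hd : d ∉ I) (hrel : t' * d = t * e) (r α β : R) (hr : r = t * α + t' * β) :
    ∃ c d' : R, d' ∉ I ∧ d' * r = c * t :=
  ⟨d * α + e * β, d, hd, by rw [hr]; linear_combination β * hrel⟩

/-- **(AP) a smooth point of the plane model carries exactly one place.**
`F = K(x, y)`, `Φ(x, y) = 0`, and `(a, b)` is a point where `∂Φ/∂Y ≠ 0` (i.e. `b` is a simple
root of `Φ(a, Y)`) or `∂Φ/∂X ≠ 0` (i.e. `a` is a simple root of `Φ(X, b)`).  Then any two places
of `F / K` centred at `(a, b)` coincide. -/
theorem place_eq_of_smooth (x y : F) (hgen : IntermediateField.adjoin K {x, y} = ⊤)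
    (Φ : K[X][Y]) (hΦ : aevalAeval x y Φ = 0) (a b : K)
    (hsm : (derivative (Φ.map (evalRingHom a))).eval b ≠ 0 ∨
      (derivative (Φ.eval (C b))).eval a ≠ 0)
    {v w : Place K F} (hv : IsCentred v x y a b) (hw : IsCentred w x y a b) : v = w := by
  have := isFractionRing_coordRing K x y hgen
  apply Place.ext
  obtain ⟨Q₁, q₂, hdec, hQ₁, hq₂⟩ := exists_decomp Φ a b
  have hΦab : Φ.evalEval a b = 0 := by
    rw [← hv.adicValuation_lt_one_iff, hΦ, map_zero]
    exact zero_lt_one
  have hΦR : evR K x y Φ = 0 := Subtype.ext hΦ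
  have hrel : evR K x y (Y - C (C b)) * evR K x y Q₁ +
      evR K x y (C (X - C a)) * evR K x y (C q₂) = 0 := by
    have h0 := congrArg (evR K x y) hdec
    rw [hΦR, hΦab] at h0
    rw [h0]
    simp only [map_add, map_mul, map_zero, add_zero]
  have hspan : ∀ r ∈ ptIdeal x y a b, ∃ α β : coordRing K x y,
      r = evR K x y (C (X - C a)) * α + evR K x y (Y - C (C b)) * β := by
    intro r hr
    obtain ⟨G, rfl⟩ := evR_surjective K x y r
    rw [hv.evR_mem_ptIdeal_iff] at hr
    obtain ⟨Q₁', q₂', hdec', -, -⟩ := exists_decomp G a b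
    refine ⟨evR K x y (C q₂'), evR K x y Q₁', ?_⟩
    have h0 := congrArg (evR K x y) hdec'
    rw [hr] at h0
    rw [h0]
    simp only [map_add, map_mul, map_zero, add_zero]
    ring
  have hunit : ∀ u : Place K F, IsCentred u x y a b → ∀ s : coordRing K x y,
      s ∉ ptIdeal x y a b → (algebraMap (coordRing K x y) F s)⁻¹ ∈ u.toValuationSubring := by
    intro u hu s hs
    obtain ⟨G, rfl⟩ := evR_surjective K x y s
    rw [hu.evR_mem_ptIdeal_iff] at hs
    apply mem_of_adicValuation_le_one
    rw [map_inv₀]
    show (u.adicValuation (aevalAeval x y G))⁻¹ ≤ 1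
    rw [hu.adicValuation_eq_one hs, inv_one]
  have hR : ∀ u : Place K F, IsCentred u x y a b → ∀ r : coordRing K x y,
      algebraMap (coordRing K x y) F r ∈ u.toValuationSubring := by
    intro u hu r
    obtain ⟨G, rfl⟩ := evR_surjective K x y r
    exact hu.aevalAeval_mem G
  rcases hsm with h1 | h1
  · refine valuationSubring_eq_of_principal (ptIdeal x y a b) hv.ptIdeal_isPrime _ _ v.ne_top'
      w.ne_top' (hR v hv) (hR w hw) (hunit v hv) (hunit w hw) (evR K x y (C (X - C a))) ?_ ?_
    · exact (hv.evR_mem_ptIdeal_iff _).mpr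
        (by rw [evalEval_C, eval_sub, eval_X, eval_C, sub_self])
    · intro r hr
      obtain ⟨α, β, rfl⟩ := hspan r hr
      refine exists_mul_eq_of_rel _ _ (evR K x y (Y - C (C b))) (evR K x y Q₁)
        (-evR K x y (C q₂)) ?_ ?_ _ α β rfl
      · rw [hv.evR_mem_ptIdeal_iff, hQ₁]
        exact h1
      · linear_combination hrel
  · refine valuationSubring_eq_of_principal (ptIdeal x y a b) hv.ptIdeal_isPrime _ _ v.ne_top'
      w.ne_top' (hR v hv) (hR w hw) (hunit v hv) (hunit w hw) (evR K x y (Y - C (C b))) ?_ ?_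
    · exact (hv.evR_mem_ptIdeal_iff _).mpr (by simp)
    · intro r hr
      obtain ⟨α, β, rfl⟩ := hspan r hr
      refine exists_mul_eq_of_rel _ _ (evR K x y (C (X - C a))) (evR K x y (C q₂))
        (-evR K x y Q₁) ?_ ?_ _ β α (by ring)
      · rw [hv.evR_mem_ptIdeal_iff, evalEval_C, hq₂]
        exact h1
      · linear_combination hrel

end Place

end Fermat.Agent.MAZ.AP75
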